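import Fermat.Agent.EigenLattice.Assembly
import Fermat.Agent.LevelMatch.Main
import Fermat.Agent.BadRed.Newform

/-!
The level of a newform with the eigensystem of a semistable curve is squarefree, granted the
geometric bound on inertia fixed classes.
-/

set_option autoImplicit false
set_option linter.style.haveILetI false
set_option linter.unusedSectionVars false
set_option synthInstance.maxHeartbeats 400000
set_option maxHeartbeats 1000000

noncomputable section

open scoped Classical MatrixGroups WeierstrassCurve.Affine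
open WeierstrassCurve Polynomial CongruenceSubgroup ModularFormClass Matrix

namespace FLTAgent.CarayolK

open FLTAgent.EigenLattice FLTAgent.LevelMatch

local notation "QA" => AlgebraicClosure ℚ
local notation "GG" => (AlgebraicClosure ℚ ≃ₐ[ℚ] AlgebraicClosure ℚ)

/-- Inertia at `q` does not act unipotently on the eigen lattice when `q²` divides the level. -/
theorem not_isUnipotent_eigenRep_of_sq_dvd
    (hB : ∀ (q M' : ℕ) [Fact q.Prime] [NeZero M'], CarayolBound q M')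
    {M : ℕ} [NeZero M] {g : CuspForm (Gamma0 M) 2} (hg : g.IsNewform) (p : ℕ) [Fact p.Prime]
    (κ : AlgebraicClosure ℚ →+* ℂ) {O : Type} [CommRing O] [IsDomain O] [IsDiscreteValuationRing O]
    [CharZero O] [IsAdicComplete (IsLocalRing.maximalIdeal O) O]
    (hp : (p : O) ∈ IsLocalRing.maximalIdeal O) (F : (CuspForms.eigenChar hg.1).range →+* O)
    {q : ℕ} (hq : q.Prime) (hqp : q ≠ p) (hsq : q ^ 2 ∣ M) :
    ¬ (eigenRep M p κ hp (F.comp (CuspForms.eigenChar hg.1).rangeRestrict)).IsUnipotentOnInertiaAt q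
    := by
  haveI : Fact q.Prime := ⟨hq⟩
  obtain ⟨M', rfl⟩ : ∃ M', M = q * M' * q := by
    obtain ⟨d, rfl⟩ := hsq
    exact ⟨d, by ring⟩
  haveI : NeZero M' := ⟨fun h => NeZero.ne (q * M' * q) (by rw [h]; ring)⟩
  intro hun
  obtain ⟨A, hA⟩ := Frobenius.exists_liesOverPrime q hq
  set χ := F.comp (CuspForms.eigenChar hg.1).rangeRestrict
  set ρ := eigenRep (q * M' * q) p κ hp χ
  obtain ⟨bs⟩ := Deformation.nonempty_basis ρ
  obtain ⟨w, hw0, hw⟩ := exists_fixed_vector (A.inertiaSubgroupIn ℚ) (Deformation.matOf ρ bs)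
    fun σ hσ => by
      rw [← Frobenius.charpoly_eq_charpoly_matOf ρ bs]
      exact hun A hA σ hσ
  set u : ρ.V := bs.equivFun.symm w with hu
  have hu0 : u ≠ 0 := by
    rw [hu, Ne, LinearEquiv.map_eq_zero_iff]
    exact hw0
  have hufix : ∀ σ ∈ A.inertiaSubgroupIn ℚ, ρ.ρ σ u = u := fun σ hσ => by
    refine bs.equivFun.injective (funext fun i => ?_)
    have h1 := congrFun (hw σ hσ) i
    have h2 := LinearMap.toMatrix_mulVec_repr bs bs (ρ.ρ σ) u
    have h3 : (bs.repr u : Fin 2 → O) = w := bs.equivFun.apply_symm_apply w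
    rw [h3] at h2
    rw [Module.Basis.equivFun_apply, Module.Basis.equivFun_apply, ← h2, h3]
    exact h1
  set v : eigenVec (q * M' * q) χ := u
  have hfix : ∀ σ ∈ A.inertiaSubgroupIn ℚ,
      galO (q * M' * q) p κ O hp σ *ᵥ (v : Ix (q * M' * q) → O) = v := fun σ hσ => by
    have h := congrArg (fun z : eigenVec (q * M' * q) χ => (z : Ix (q * M' * q) → O))
      (hufix σ hσ : (ρ.ρ σ u : eigenVec (q * M' * q) χ) = (u : eigenVec (q * M' * q) χ))
    rwa [coe_eigenRep_apply] at h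
  exact hu0 (Subtype.ext (eq_zero_of_fixed (hB q M') hg p hqp κ hp F hA v.2 hfix))

theorem complexConjugation_ne_one : (complexConjugation : GG) ≠ 1 := by
  intro h1
  obtain ⟨i, hi⟩ := IsAlgClosed.exists_eq_mul_self (-1 : QA)
  have h2 := complexEmbedding_complexConjugation i
  rw [h1, AlgEquiv.one_apply] at h2
  obtain ⟨x, hx⟩ := Complex.conj_eq_iff_real.mp h2.symm
  have h3 := congrArg complexEmbedding hi
  rw [map_mul, map_neg, map_one, hx] at h3
  have h4 : ((x * x : ℝ) : ℂ) = ((-1 : ℝ) : ℂ) := by push_cast; exact h3.symm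
  linarith [Complex.ofReal_inj.mp h4, mul_self_nonneg x]

variable {W : WeierstrassCurve ℤ}

/-- The Tate module at an odd prime is not everywhere scalar. -/
theorem exists_not_scalar_tateRep_of_odd (hW : W.Δ ≠ 0) {p : ℕ} [hp : Fact p.Prime] (hp2 : p ≠ 2)
    (B : TateBasis (FrobTrace.barCurve W).Point p) :
    ∃ σ : GG, ¬ DetCyclo.IsScalarMat (B.tateRep σ : Deformation.M2 ℤ_[p]) := by
  refine ⟨complexConjugation, fun hsc => ?_⟩
  set c : GG := complexConjugation
  obtain ⟨x, hM⟩ : ∃ x : ℤ_[p], (B.tateRep c : Deformation.M2 ℤ_[p]) = x • 1 :=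
    ⟨_, DetCyclo.exists_eq_smul_one hsc⟩
  have hsq : x * x = 1 := by
    have h := map_mul B.tateRep c c
    rw [complexConjugation_mul_self, map_one, hM, smul_mul_smul_comm, one_mul] at h
    have h0 := congrFun (congrFun h 0) 0
    simpa using h0.symm
  obtain ⟨m, hxm, hm⟩ : ∃ m : ℤ, x = (m : ℤ_[p]) ∧ m * m = 1 := by
    rcases mul_self_eq_one_iff.mp hsq with h | h
    · exact ⟨1, by simp [h], one_mul 1⟩
    · exact ⟨-1, by simp [h], by norm_num⟩
  have hdet := det_resW_involution (p := p) hW hp2 complexConjugation_mul_self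
    complexConjugation_ne_one
  have hlin : (resW W hW p).ρ c = (m : ZMod p) • 1 := by
    refine LinearMap.ext fun P => ?_
    rw [LinearMap.smul_apply, Module.End.one_apply, Int.cast_smul_eq_zsmul]
    have key : ∀ T : Submodule.torsionBy ℤ
        ((W.map (Int.castRingHom ℚ))⁄(AlgebraicClosure ℚ)).Point p, c • T = m • T := fun T => by
      refine Subtype.ext ?_
      obtain ⟨u, hu⟩ := B.exists_pt 1 (T := (T.1 : (FrobTrace.barCurve W).Point)) (by
        rw [pow_one]; exact Torsion.mem_torsionBy_iff_nsmul.mp T.2)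
      show c • (T.1 : (FrobTrace.barCurve W).Point) = m • (T.1 : (FrobTrace.barCurve W).Point)
      rw [← hu, B.smul_pt, hM, smul_mulVec, one_mulVec]
      exact B.pt_smul 1 (by rw [hxm, sub_self]; exact dvd_zero _) u
    exact key P
  rw [hlin, LinearMap.det_smul, map_one, mul_one, (resW W hW p).finrank_eq, sq, ← Int.cast_mul,
    hm, Int.cast_one] at hdet
  haveI : Fact (2 < p) := ⟨lt_of_le_of_ne hp.out.two_le (Ne.symm hp2)⟩
  exact ZMod.neg_one_ne_one hdet.symm

/-- The Tate module of a semistable curve as a representation over an algebra of `ℤ_p`. -/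
theorem exists_tate_adic (hW : W.Δ ≠ 0) (hss : W.IsSemistableModel) {p : ℕ} [hp : Fact p.Prime]
    (hp2 : p ≠ 2) {O : Type} [CommRing O] [IsDomain O] [IsLocalRing O] [Algebra ℤ_[p] O]
    [IsLocalHom (algebraMap ℤ_[p] O)] (S : Finset ℕ) (hpS : p ∈ S)
    (hgood : ∀ ℓ : ℕ, ℓ.Prime → ℓ ∉ S → W.IsGoodPrimeFor ℓ) :
    ∃ R : GaloisRepAdic O,
      (∀ ℓ : ℕ, ℓ.Prime → ℓ ∉ S → ∀ V : ValuationSubring QA, V.LiesOverPrime ℓ →
        ∀ τ : GG, V.IsFrobeniusAt τ ℓ →
          LinearMap.charpoly (R.ρ τ) = X ^ 2 - C ((W.apOfModel ℓ : ℤ) : O) * X + C (ℓ : O)) ∧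
      ∀ q : ℕ, q.Prime → q ≠ p → R.IsUnipotentOnInertiaAt q := by
  obtain ⟨B⟩ := exists_tateBasis_curve hW p
  set r : GG →* Deformation.M2 ℤ_[p] := B.tateRep
  have hr : Deformation.MatCts r := matCts_tateRep hW B
  have hpA := padicInt_natCast_mem p
  have hquad : ∀ ℓ : ℕ, ℓ.Prime → ℓ ∉ S → ∀ V : ValuationSubring QA, V.LiesOverPrime ℓ →
      ∀ τ : GG, V.IsFrobeniusAt τ ℓ →
        r τ * r τ - ((W.apOfModel ℓ : ℤ) : ℤ_[p]) • r τ + (ℓ : ℤ_[p]) • 1 = 0 := by
    intro ℓ hℓ hℓS V hV τ hτ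
    haveI : Fact ℓ.Prime := ⟨hℓ⟩
    exact tate_quad B (hgood ℓ hℓ hℓS) (fun e => hℓS (e ▸ hpS)) hV hτ
  have hns := exists_not_scalar_tateRep_of_odd hW hp2 B
  have hdet : ∀ σ : GG, (∀ n, DetCyclo.CycloExponent p n σ 1) → (r σ).det = 1 := fun σ hσ =>
    DetCyclo.eq_of_forall_sub_mem fun n => by
      simpa using DetCyclo.det_cyclo p hpA r hr S hpS
        (fun ℓ => ((W.apOfModel ℓ : ℤ) : ℤ_[p])) hquad hns σ n 1 (hσ n)
  let φ := algebraMap ℤ_[p] O
  let R : GaloisRepAdic O :=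
    Deformation.repOfMatrix (Deformation.mapMat φ r) (hr.map φ inferInstance)
  have hR : ∀ σ, LinearMap.charpoly (R.ρ σ) = (r σ).charpoly.map φ := fun σ => by
    show LinearMap.charpoly (Matrix.toLin' ((r σ).map φ)) = _
    rw [Matrix.charpoly_toLin', Matrix.charpoly_map]
  refine ⟨R, fun ℓ hℓ hℓS V hV τ hτ => ?_, fun q hq hqp A hA σ hσ => ?_⟩
  · rw [hR, Matrix.charpoly_fin_two]
    obtain ⟨ht, hd⟩ := DetCyclo.trace_det_frobenius p hpA r hr S hpS
      (fun ℓ => ((W.apOfModel ℓ : ℤ) : ℤ_[p])) hquad hns hℓ hℓS hV hτ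
    rw [ht, hd]
    simp
  · rw [hR]
    have hu := tateRep_inertia B hW hss hp2 hdet hq hqp hA hσ
    have e := fun i j => congrFun (congrFun hu i) j
    have e00 := e 0 0
    have e01 := e 0 1
    have e10 := e 1 0
    have e11 := e 1 1
    simp [sq, Matrix.mul_apply, Fin.sum_univ_two, Matrix.sub_apply] at e00 e01 e10 e11
    have htr : (r σ 0 0 - 1) + (r σ 1 1 - 1) = 0 := by
      rcases mul_eq_zero.mp (show r σ 0 1 * ((r σ 0 0 - 1) + (r σ 1 1 - 1)) = 0 by
        linear_combination e01) with h | h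
      · have h0 : (r σ 0 0 - 1) * (r σ 0 0 - 1) = 0 := by rw [h] at e00; linear_combination e00
        have h1 : (r σ 1 1 - 1) * (r σ 1 1 - 1) = 0 := by rw [h] at e11; linear_combination e11
        rw [mul_self_eq_zero.mp h0, mul_self_eq_zero.mp h1, add_zero]
      · exact h
    have hdt : (r σ).det = 2 * 0 + 1 := by
      rw [Matrix.det_fin_two]
      linear_combination (-(1 : ℤ_[p])) * e00 + (r σ 0 0) * htr
    rw [Matrix.charpoly_fin_two, Matrix.trace_fin_two, hdt,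
      show r σ 0 0 + r σ 1 1 = 2 by linear_combination htr]
    simp only [mul_zero, zero_add, Polynomial.map_add, Polynomial.map_sub, Polynomial.map_mul,
      Polynomial.map_pow, Polynomial.map_X, map_ofNat, map_one, Polynomial.map_one,
      Polynomial.map_ofNat]
    ring

variable {M : ℕ} [NeZero M] {g : CuspForm (Gamma0 M) 2}

/-- No square of a prime divides the level of the newform of a semistable curve. -/
theorem false_of_sq_dvd_level
    (hB : ∀ (q M' : ℕ) [Fact q.Prime] [NeZero M'], CarayolBound q M') (hg : g.IsNewform)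
    (hW : W.Δ ≠ 0) (hss : W.IsSemistableModel)
    (hcoef : ∀ ℓ : ℕ, ℓ.Prime → W.IsGoodPrimeFor ℓ → ¬ ℓ ∣ M → qCoeff g ℓ = (W.apOfModel ℓ : ℂ))
    {q : ℕ} (hq : q.Prime) (hsq : q ^ 2 ∣ M) : False := by
  obtain ⟨p, hp, hp2, hqp⟩ : ∃ p : ℕ, p.Prime ∧ p ≠ 2 ∧ q ≠ p := by
    by_cases h3 : q = 3
    · exact ⟨5, Nat.prime_five, by norm_num, by omega⟩
    · exact ⟨3, Nat.prime_three, by norm_num, h3⟩
  haveI : Fact p.Prime := ⟨hp⟩
  haveI := finite_padicInt_residue p
  set S : Finset ℕ := insert p (M.primeFactors ∪ W.Δ.natAbs.primeFactors) with hS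
  have hpS : p ∈ S := Finset.mem_insert_self _ _
  have hMS : ∀ r : ℕ, r.Prime → r ∣ M → r ∈ S := fun r hr hrM =>
    Finset.mem_insert_of_mem (Finset.mem_union_left _ (Nat.mem_primeFactors.mpr ⟨hr, hrM, NeZero.ne M⟩))
  have hgS : ∀ r : ℕ, r.Prime → r ∉ S → W.IsGoodPrimeFor r ∧ ¬ r ∣ M := fun r hr hrS =>
    ⟨fun hd => hrS (Finset.mem_insert_of_mem (Finset.mem_union_right _ (Nat.mem_primeFactors.mpr
      ⟨hr, Int.natCast_dvd.mp hd, Int.natAbs_ne_zero.mpr hW⟩))), fun hd => hrS (hMS r hr hd)⟩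
  have hint := exists_intCast_eigenCharAway hg.1 S hMS fun r hr hrS =>
    ⟨_, hcoef r hr (hgS r hr hrS).1 (hgS r hr hrS).2⟩
  obtain ⟨O, _, _, _, _, _, _, _, _, _, -, F, hF⟩ :=
    exists_full_character hg.1 (S := (↑S : Set ℕ)) ℤ_[p] hMS
      (EigenReps.eigenCharAway hg.1 (↑S : Set ℕ))
      (fun r hr hrM hrS => EigenReps.coe_eigenCharInt_T hg.1 hr hrM hrS)
      (intOfRange _ hint ℤ_[p])
  have hpO : (p : O) ∈ IsLocalRing.maximalIdeal O := by
    rw [← map_natCast (algebraMap ℤ_[p] O)]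
    exact map_nonunit (algebraMap ℤ_[p] O) _ (padicInt_natCast_mem p)
  set κ : AlgebraicClosure ℚ →+* ℂ := complexEmbedding.toRingHom
  set χ := F.comp (CuspForms.eigenChar hg.1).rangeRestrict with hχ
  set a : ℕ → O := fun ℓ => ((W.apOfModel ℓ : ℤ) : O) with ha
  have hquad : ∀ ℓ : ℕ, ℓ.Prime → ℓ ∉ S → ∀ V : ValuationSubring QA, V.LiesOverPrime ℓ →
      ∀ τ : GG, V.IsFrobeniusAt τ ℓ → (eigenRep M p κ hpO χ).ρ τ * (eigenRep M p κ hpO χ).ρ τ -
        a ℓ • (eigenRep M p κ hpO χ).ρ τ + (ℓ : O) • 1 = 0 := by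
    intro ℓ hℓ hℓS V hV τ hτ
    have hℓM : ¬ ℓ ∣ M := (hgS ℓ hℓ hℓS).2
    have e : χ (CuspForms.heckeGen M ℓ hℓ) = a ℓ := by
      refine (hF ℓ hℓ hℓM hℓS).trans ?_
      rw [show (intOfRange _ hint ℤ_[p])
          ((EigenReps.eigenCharAway hg.1 (↑S : Set ℕ)).rangeRestrict
            (CuspForm.heckeAlgebra.T hℓ hℓM hℓS)) = ((W.apOfModel ℓ : ℤ) : ℤ_[p]) from
        intOfRange_apply _ hint _ ((EigenReps.coe_eigenCharInt_T hg.1 hℓ hℓM hℓS).trans
          (hcoef ℓ hℓ (hgS ℓ hℓ hℓS).1 hℓM)), map_intCast]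
    rw [← e]
    exact eigenRep_frobenius M p κ hpO χ hℓ hℓM (fun h => hℓS (h ▸ hpS)) hV hτ
  refine not_isUnipotent_eigenRep_of_sq_dvd hB hg p κ hpO F hq hqp hsq ?_
  obtain ⟨R, hRF, hRI⟩ := exists_tate_adic (O := O) hW hss hp2 S hpS fun ℓ hℓ h => (hgS ℓ hℓ h).1
  have hmain : ∀ ρ : GaloisRepAdic O, (∀ ℓ : ℕ, ℓ.Prime → ℓ ∉ S →
      ∀ V : ValuationSubring QA, V.LiesOverPrime ℓ → ∀ τ : GG, V.IsFrobeniusAt τ ℓ →
        LinearMap.charpoly (ρ.ρ τ) = X ^ 2 - C (a ℓ) * X + C (ℓ : O)) →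
      ρ.IsUnipotentOnInertiaAt q := fun ρ hρ A hA σ hσ => by
    rw [Frobenius.charpoly_eq_of_frobenius ρ R S
      (fun ℓ hℓ hℓS V hV τ hτ => by rw [hρ ℓ hℓ hℓS V hV τ hτ, hRF ℓ hℓ hℓS V hV τ hτ]) σ]
    exact hRI q hq hqp A hA σ hσ
  intro A hA σ hσ
  by_cases hns : ∃ σ, ∀ c : O, (eigenRep M p κ hpO χ).ρ σ ≠ c • 1
  · exact hmain _ (fun ℓ hℓ hℓS V hV τ hτ =>
      DetCyclo.charpoly_frobenius p hpO _ S hpS a hquad hns hℓ hℓS hV hτ) A hA σ hσ
  · push Not at hns
    obtain ⟨ρ', c, hc, hch⟩ := BadRed.exists_companion_hom p hpO _ hns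
    obtain ⟨bs⟩ := Deformation.nonempty_basis (eigenRep M p κ hpO χ)
    have hinv : ∀ σ, c σ * c σ⁻¹ = 1 := fun σ => by rw [← map_mul, mul_inv_cancel, map_one]
    have hρ' : ρ'.IsUnipotentOnInertiaAt q := hmain ρ' fun ℓ hℓ hℓS V hV τ hτ => by
      have h1 := hquad ℓ hℓ hℓS V hV τ hτ
      rw [hc, smul_mul_smul_comm, one_mul, smul_smul, ← sub_smul, ← add_smul] at h1
      have h2 : c τ * c τ - a ℓ * c τ + ℓ = 0 := by
        have h3 := congrArg
          (fun f : Module.End O (eigenRep M p κ hpO χ).V => bs.repr (f (bs 0)) 0) h1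
        simpa using h3
      rw [hch, cycloO_frobenius p hpO hℓ (fun h => hℓS (h ▸ hpS)) hV hτ,
        show c τ + (ℓ : O) * c τ⁻¹ = a ℓ by
          linear_combination (a ℓ - c τ) * hinv τ + c τ⁻¹ * h2]
    have h := hρ' A hA σ hσ
    rw [hch σ] at h
    have e1 := congrArg (fun P => Polynomial.coeff P 1) h
    have e0 := congrArg (fun P => Polynomial.coeff P 0) h
    simp [Polynomial.coeff_X_pow, Polynomial.coeff_one, sub_sq] at e1 e0
    have hc1 : c σ = 1 := by
      refine sub_eq_zero.mp (mul_self_eq_zero.mp ?_)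
      rw [e0] at e1
      linear_combination -(c σ) * e1 - hinv σ
    rw [hc, hc1, one_smul, LinearMap.charpoly_one, (eigenRep M p κ hpO χ).finrank_eq]

end FLTAgent.CarayolK
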