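import Fermat.Agent.LocalEC.VarChange
import Fermat.Prelude.Def_FLTPrelim_Modularity
import Mathlib.NumberTheory.Padics.RingHoms

/-!
Two integral models of a curve over `ℚ` have the same point counts at almost all primes.
-/

set_option autoImplicit false
set_option linter.style.haveILetI false

noncomputable section

open scoped Classical
open WeierstrassCurve WeierstrassCurve.Affine

namespace FLTAgent.CarayolK

open FLTAgent.LocalEC

/-- Curves related by a change of variables over a field have equally many points. -/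
theorem card_variableChange {k : Type} [Field k] (C : VariableChange k) (V : WeierstrassCurve k) :
    (C • V).card = V.card := by
  have hmul : ∀ (n : ℕ) (z : k), (C.u : k) ^ n * ((C.u⁻¹ : kˣ) ^ n * z) = z := fun n z => by
    rw [← mul_assoc, ← mul_pow, Units.mul_inv, one_pow, one_mul]
  let D : PointChange (V.toAffine) ((C • V).toAffine) :=
    { u := C.u, r := C.r, s := C.s, t := C.t, hu := C.u.ne_zero
      h₁ := by rw [variableChange_a₁]; simp
      h₂ := by rw [variableChange_a₂]; exact hmul 2 _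
      h₃ := by rw [variableChange_a₃]; exact hmul 3 _
      h₄ := by rw [variableChange_a₄]; exact hmul 4 _
      h₆ := by rw [variableChange_a₆]; exact hmul 6 _ }
  refine Nat.card_congr (Equiv.ofBijective D.pointMap ⟨D.pointMap_injective, ?_⟩)
  rintro (_ | ⟨x, y, h⟩)
  · exact ⟨0, map_zero _⟩
  · obtain ⟨x', y', he', ex, ey⟩ := D.exists_preimage (W' := (C • V).toAffine) h.1
    subst ex ey
    exact ⟨Point.some x' y' (D.nonsingular_of_map he' h), rfl⟩

/-- Two integral models of a curve have the same traces at almost all primes. -/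
theorem exists_apOfModel_eq {E : WeierstrassCurve ℚ} {W W₀ : WeierstrassCurve ℤ}
    (hW : W.IsIntegralModelOf E) (hW₀ : W₀.IsIntegralModelOf E) :
    ∃ B : ℕ, B ≠ 0 ∧ ∀ ℓ : ℕ, ℓ.Prime → ¬ ℓ ∣ B → W.apOfModel ℓ = W₀.apOfModel ℓ := by
  obtain ⟨C₁, h₁⟩ := hW
  obtain ⟨C₀, h₀⟩ := hW₀
  set C := C₁ * C₀⁻¹ with hCdef
  have hC : C • W₀.map (Int.castRingHom ℚ) = W.map (Int.castRingHom ℚ) := by
    rw [← h₀, hCdef, mul_smul, inv_smul_smul, h₁]
  refine ⟨(C.u : ℚ).den * ((C.u⁻¹ : ℚˣ) : ℚ).den * C.r.den * C.s.den * C.t.den, by positivity,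
    fun ℓ hℓ hd => ?_⟩
  haveI : Fact ℓ.Prime := ⟨hℓ⟩
  simp only [hℓ.dvd_mul, not_or] at hd
  obtain ⟨⟨⟨⟨hu, hu'⟩, hr⟩, hs⟩, ht⟩ := hd
  let lift : ∀ x : ℚ, ¬ ℓ ∣ x.den → ℤ_[ℓ] := fun x hx => ⟨(x : ℚ_[ℓ]), Padic.norm_rat_le_one hx⟩
  have huv : lift _ hu * lift _ hu' = 1 := Subtype.ext (by
    show ((C.u : ℚ) : ℚ_[ℓ]) * (((C.u⁻¹ : ℚˣ) : ℚ) : ℚ_[ℓ]) = 1
    rw [← Rat.cast_mul, Units.mul_inv, Rat.cast_one])
  let Cl : VariableChange ℤ_[ℓ] :=
    { u := ⟨lift _ hu, lift _ hu', huv, by rw [mul_comm, huv]⟩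
      r := lift _ hr, s := lift _ hs, t := lift _ ht }
  have hcoe : Cl.map (PadicInt.Coe.ringHom (p := ℓ)) = C.map (Rat.castHom ℚ_[ℓ]) := by
    ext <;> rfl
  have hint : Cl • W₀.map (Int.castRingHom ℤ_[ℓ]) = W.map (Int.castRingHom ℤ_[ℓ]) := by
    refine WeierstrassCurve.map_injective (f := PadicInt.Coe.ringHom (p := ℓ))
      Subtype.val_injective ?_
    dsimp only
    rw [← map_variableChange, hcoe, WeierstrassCurve.map_map, WeierstrassCurve.map_map,
      RingHom.ext_int ((PadicInt.Coe.ringHom).comp (Int.castRingHom ℤ_[ℓ]))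
        ((Rat.castHom ℚ_[ℓ]).comp (Int.castRingHom ℚ)),
      ← WeierstrassCurve.map_map, ← WeierstrassCurve.map_map, map_variableChange, hC]
  have hred : Cl.map (PadicInt.toZMod (p := ℓ)) • W₀.reductionMod ℓ = W.reductionMod ℓ := by
    have h := congrArg (fun V => WeierstrassCurve.map V (PadicInt.toZMod (p := ℓ))) hint
    simp only [← map_variableChange, WeierstrassCurve.map_map] at h
    rwa [RingHom.ext_int ((PadicInt.toZMod).comp (Int.castRingHom ℤ_[ℓ]))
      (Int.castRingHom (ZMod ℓ))] at h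
  rw [apOfModel, apOfModel, ← hred, traceOfFrobenius, traceOfFrobenius, card_variableChange]

end FLTAgent.CarayolK
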