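import Fermat.Agent.CarayolK.Glue.Inertia
import Fermat.Agent.CarayolK.Glue.Models
import Fermat.Agent.Mazur.FreyLarge
import Fermat.Agent.Carayol.Bound
import Fermat.Agent.S35
import Fermat.Agent.S43
import Fermat.Agent.S44

/-!
A modular Frey curve with irreducible torsion gives a form on `Γ₀(2)`, granted the geometric bound
on inertia fixed classes.
-/

set_option autoImplicit false
set_option linter.style.haveILetI false
set_option maxHeartbeats 800000

noncomputable section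

open scoped Classical
open WeierstrassCurve CongruenceSubgroup ModularFormClass

namespace FLTAgent.CarayolK

open FLTAgent.EigenLattice

/-- A semistable model with the eigensystem of a form at almost all primes is modular at the
product of its bad primes. -/
theorem isModularModelOfLevel_conductorLevel_of_bound
    (hB : ∀ (q M' : ℕ) [Fact q.Prime] [NeZero M'], CarayolBound q M')
    {W : WeierstrassCurve ℤ} (hW : W.Δ ≠ 0) (hss : W.IsSemistableModel) {N N' : ℕ} (hN0 : N ≠ 0)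
    (hN'0 : N' ≠ 0) (hNN' : N ∣ N') {f : CuspForm (CongruenceSubgroup.Gamma0 N) 2}
    (hf : f.IsNormalizedEigenform)
    (hfW : ∀ ℓ : ℕ, ℓ.Prime → W.IsGoodPrimeFor ℓ → ¬ ℓ ∣ N' →
      qCoeff f ℓ = (W.apOfModel ℓ : ℂ)) :
    W.IsModularModelOfLevel W.conductorLevel := by
  have hex : ∃ M, M ∣ N ∧ CuspForm.GoodEigensystemOccursAt f M :=
    ⟨N, dvd_rfl, CuspForm.GoodEigensystemOccursAt.refl hf⟩
  set M := Nat.find hex
  obtain ⟨hMN, g, hg, hgf⟩ := Nat.find_spec hex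
  haveI : NeZero M := ⟨fun h => hN0 (Nat.eq_zero_of_zero_dvd (h ▸ hMN))⟩
  have hnew : g.IsNewform := by
    refine ⟨hg, fun M' hM' hne ⟨g', hg', hgg'⟩ => ?_⟩
    have hlt : M' < M := lt_of_le_of_ne (Nat.le_of_dvd (Nat.pos_of_ne_zero (NeZero.ne M)) hM') hne
    refine Nat.find_min hex hlt ⟨hM'.trans hMN, g', hg', fun ℓ hℓ hℓN => ?_⟩
    exact (hgg' ℓ hℓ fun h => hℓN (h.trans hMN)).trans (hgf ℓ hℓ hℓN)
  have hagree : ∀ ℓ : ℕ, ℓ.Prime → W.IsGoodPrimeFor ℓ → ¬ ℓ ∣ N' →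
      qCoeff g ℓ = (W.apOfModel ℓ : ℂ) := fun ℓ hℓ hgood hℓN =>
    (hgf ℓ hℓ fun h => hℓN (h.trans hNN')).trans (hfW ℓ hℓ hgood hℓN)
  have hcoef : ∀ ℓ : ℕ, ℓ.Prime → W.IsGoodPrimeFor ℓ → ¬ ℓ ∣ M →
      qCoeff g ℓ = (W.apOfModel ℓ : ℂ) := fun ℓ hℓ hgood hℓM =>
    LevelMatch.qCoeff_eq_of_good hW hN'0 hg hagree hℓ hgood hℓM
  have hfac : ∀ q : ℕ, q.Prime → q ^ 2 ∣ M → False := fun q hq h =>
    false_of_sq_dvd_level hB hnew hW hss hcoef hq h
  have hsq : Squarefree M := Nat.squarefree_iff_prime_squarefree.mpr fun q hq h =>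
    hfac q hq (by rwa [sq])
  have hM : M = W.conductorLevel := by
    refine (Nat.Squarefree.ext_iff hsq W.squarefree_conductorLevel).mpr fun q hq => ?_
    rw [W.prime_dvd_conductorLevel_iff hW hq]
    exact ⟨fun h => by_contra fun hgood => hfac q hq
        (LevelMatch.sq_dvd_of_good Fermat.Agent.S35.result hnew hW hcoef hq hgood h),
      fun h => LevelMatch.dvd_level_of_bad hW hN'0 hg hagree hq h (hss q hq h)⟩
  rw [← hM]
  exact ⟨g, hg, hcoef⟩

/-- The bound from the two cases `q ∤ M'` and `q ∣ M'`. -/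
theorem carayolBound_all
    (hK : ∀ (q K M'' : ℕ) [Fact q.Prime] [NeZero (q ^ (K - 1) * M'')], ¬ q ∣ M'' → 2 ≤ K →
      CarayolBound q (q ^ (K - 1) * M''))
    (q M' : ℕ) [hq : Fact q.Prime] [hne : NeZero M'] : CarayolBound q M' := by
  by_cases hd : q ∣ M'
  · obtain ⟨j, M'', hM, rfl⟩ := Nat.exists_eq_pow_mul_and_not_dvd hne.out q hq.out.ne_one
    obtain ⟨K, rfl⟩ : ∃ K, j = K + 1 := by
      refine ⟨j - 1, (Nat.sub_add_cancel (Nat.pos_of_ne_zero fun h0 => ?_)).symm⟩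
      subst h0
      simp [hM] at hd
    haveI : NeZero (q ^ (K + 2 - 1) * M'') := hne
    exact hK q (K + 2) M'' hM (by omega)
  · exact Carayol.carayol_bound q M' hd

/-- The Frey model is semistable. -/
theorem frey_isSemistableModel (P : FreyPackage) : P.freyCurveInt.IsSemistableModel := by
  intro l hl hd
  refine (Mazur.freyInt_mult P hl ?_).2
  have h := Mazur.freyInt_disc P
  exact (Nat.prime_iff_prime_int.mp hl).dvd_of_dvd_pow (h ▸ hd.mul_left 256)

/-- A modular Frey curve is residually modular at a conductor level. -/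
theorem exists_conductor_modularRep
    (hB : ∀ (q M' : ℕ) [Fact q.Prime] [NeZero M'], CarayolBound q M')
    (P : FreyPackage) (hmod : P.freyCurve.IsModular) :
    ∃ N : ℕ, P.IsConductorLevel N ∧ P.ModularRepOfLevel N := by
  obtain ⟨W, hW, N, hN0, f, hf, hfW⟩ := hmod
  have hW₀ : P.freyCurveInt.IsIntegralModelOf P.freyCurve :=
    ⟨1, by rw [one_smul, Mazur.freyCurveInt_map]⟩
  set W₀ := P.freyCurveInt
  have hΔ₀ : W₀.Δ ≠ 0 := Mazur.freyInt_disc_ne_zero P
  obtain ⟨B, hB0, hap⟩ := exists_apOfModel_eq hW hW₀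
  have hss := frey_isSemistableModel P
  have hΔ : W.Δ ≠ 0 := MazurPrinciple.discr_ne_zero hW
  set N' := N * (B * W.Δ.natAbs) with hN'
  have hN'0 : N' ≠ 0 :=
    Nat.mul_ne_zero hN0.ne' (Nat.mul_ne_zero hB0 (Int.natAbs_ne_zero.mpr hΔ))
  obtain ⟨g, hg, hgW⟩ : W₀.IsModularModelOfLevel W₀.conductorLevel := by
    refine isModularModelOfLevel_conductorLevel_of_bound hB hΔ₀ hss hN0.ne' hN'0
      (dvd_mul_right _ _) hf fun ℓ hℓ hgood hℓN => ?_
    have hgoodW : W.IsGoodPrimeFor ℓ := fun h => hℓN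
      ((Int.natCast_dvd.mp h).trans ((dvd_mul_left _ B).trans (dvd_mul_left _ N)))
    rw [hfW ℓ hℓ hgoodW (fun h => hℓN (h.trans (dvd_mul_right _ _))),
      hap ℓ hℓ (fun h => hℓN (h.trans ((dvd_mul_right _ _).trans (dvd_mul_left _ N))))]
  obtain ⟨𝔪, h𝔪, hp𝔪⟩ := FLTPrelim.exists_maximalIdeal_natCast_prime_mem P.pp
  refine ⟨W₀.conductorLevel, ⟨W₀.conductorLevel_pos, W₀.squarefree_conductorLevel, fun q hq hqN => ?_⟩,
    g, W₀, 𝔪, hg, hW₀, h𝔪, hp𝔪, fun ℓ hℓ hgood hℓN _ => ?_⟩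
  · have hd := (W₀.prime_dvd_conductorLevel_iff hΔ₀ hq).mp hqN
    exact (Nat.prime_iff_prime_int.mp hq).dvd_of_dvd_pow (Mazur.freyInt_disc P ▸ hd.mul_left 256)
  · refine ⟨((W₀.apOfModel ℓ : ℤ) : integralClosure ℤ ℂ), ?_, by rw [sub_self]; exact zero_mem _⟩
    rw [hgW ℓ hℓ hgood hℓN]
    simp

/-- A modular Frey curve with irreducible torsion gives a form on `Γ₀(2)`. -/
theorem exists_form_two_of_bound
    (hB : ∀ (q M' : ℕ) [Fact q.Prime] [NeZero M'], CarayolBound q M')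
    (P : FreyPackage) (hmod : P.freyCurve.IsModular)
    (hirr : WeierstrassCurve.Affine.Point.GaloisRepIsIrreducible (K := AlgebraicClosure ℚ) ℚ
      P.freyCurve P.p) :
    ∃ f : CuspForm (CongruenceSubgroup.Gamma0 2) 2, f ≠ 0 := by
  obtain ⟨N, hcond, hrep⟩ := exists_conductor_modularRep hB P hmod
  exact Lowering.exists_form_two Fermat.Agent.S44.result Fermat.Agent.S43.result P hcond hirr hrep

end FLTAgent.CarayolK
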